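import Mathlib
import Fermat.Prelude.Def_AlgebraicCurve_DivisorClassGroup
import Fermat.Agent.S24.FFBridge
import Fermat.Agent.S24.FFModel
import Fermat.Agent.S24.FFPlaces
import Fermat.Agent.S18.KummerDescent
import Fermat.Agent.S18.Trans.PlaceRestrict

/-!
# S18, block B (places), leaf B1: places under a constant field extension

Generic setting: fields `L ⊆ K` (`K / L` algebraic), function fields `FL / L`, `FK / K` with an
embedding `FL → FK` compatible with `L → K`.

* `restrictScalars : Place K F → Place L F` (same valuation subring), `ord_restrictScalars`;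
* `down : Place K FK → Place L FL` (valuation subring `= comap`), `ord_down`
  (`ord_{P'} ∘ ι = e · ord_{down P'}`, `e > 0`), `ord_down_of_exists_one` (`e = 1` as soon as some
  element of `FL` has order one at `P'`);
* `isPrincipalIdealRing_of_mem` : a nontrivial valuation subring of a function field `F / K`
  containing `K` and a transcendental `y` with `[F : K(y)] < ∞` is a discrete valuation ring;
* `exists_up` : every place of `FL / L` is the restriction of a place of `FK / K`;
* `dvd_ord_of_bar` : divisibility of all orders over `K` descends to all places over `L`,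
  provided `FK / FL` is unramified at every place (`hunr`).
-/

set_option autoImplicit false
set_option linter.unusedSectionVars false

open AlgebraicCurve IsDedekindDomain IntermediateField Polynomial

namespace Fermat.Agent.S18.Places.ConstExt

open Fermat.Agent.S24 Fermat.Agent.S18.Trans

section ChangeBase

variable {L K F : Type*} [Field L] [Field K] [Field F] [Algebra L K] [Algebra K F] [Algebra L F]
  [IsScalarTower L K F]

/-- A place over `K` is a place over any subfield `L` of constants. -/
def restrictScalars (P : Place K F) : Place L F where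
  toValuationSubring := P.toValuationSubring
  algebraMap_mem' a := by
    rw [IsScalarTower.algebraMap_apply L K F]
    exact P.algebraMap_mem' _
  ne_top' := P.ne_top'
  isPrincipalIdealRing' := P.isPrincipalIdealRing'

@[simp]
theorem restrictScalars_toValuationSubring (P : Place K F) :
    (restrictScalars (L := L) P).toValuationSubring = P.toValuationSubring := rfl

end ChangeBase

section OrdCongr

variable {K₁ K₂ F : Type*} [Field K₁] [Field K₂] [Field F] [Algebra K₁ F] [Algebra K₂ F]

/-- `ord` only depends on the valuation subring. -/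
theorem ord_congr (P₁ : Place K₁ F) (P₂ : Place K₂ F)
    (h : P₁.toValuationSubring = P₂.toValuationSubring) (f : F) : P₁.ord f = P₂.ord f := by
  obtain ⟨V₁, h1, h2, h3⟩ := P₁
  obtain ⟨V₂, h1', h2', h3'⟩ := P₂
  simp only at h
  subst h
  rfl

end OrdCongr

section ChangeBase'

variable {L K F : Type*} [Field L] [Field K] [Field F] [Algebra L K] [Algebra K F] [Algebra L F]
  [IsScalarTower L K F]

@[simp]
theorem ord_restrictScalars (P : Place K F) (f : F) :
    (restrictScalars (L := L) P).ord f = P.ord f :=
  ord_congr _ _ rfl f

end ChangeBase'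

section Down

variable {L K FL FK : Type*} [Field L] [Field K] [Field FL] [Field FK]
  [Algebra L K] [Algebra L FL] [Algebra K FK] [Algebra FL FK] [Algebra L FK]
  [IsScalarTower L FL FK] [IsScalarTower L K FK] [Algebra.IsAlgebraic FL FK]

/-- The restriction of a place of `FK / K` to a place of `FL / L`. -/
noncomputable def down (P' : Place K FK) : Place L FL :=
  PlaceRestrict.restrict (K := L) (F := FL) (F' := FK) (restrictScalars (L := L) P')

@[simp]
theorem down_toValuationSubring (P' : Place K FK) :
    (down (L := L) (FL := FL) P').toValuationSubring =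
      P'.toValuationSubring.comap (algebraMap FL FK) := rfl

theorem mem_down_iff (P' : Place K FK) (y : FL) :
    y ∈ (down (L := L) (FL := FL) P').toValuationSubring ↔
      algebraMap FL FK y ∈ P'.toValuationSubring := Iff.rfl

/-- `ord_{P'} ∘ ι = e · ord_{down P'}` with `e > 0`. -/
theorem ord_down (P' : Place K FK) :
    ∃ e : ℤ, 0 < e ∧ ∀ y : FL,
      P'.ord (algebraMap FL FK y) = e * (down (L := L) (FL := FL) P').ord y := by
  obtain ⟨e, he, h⟩ := PlaceRestrict.exists_ramification (K := L) (F := FL) (F' := FK)
    (restrictScalars (L := L) P')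
  refine ⟨e, he, fun y => ?_⟩
  have h' := h y
  rw [ord_restrictScalars] at h'
  exact h'

/-- if some element of `FL` has order one at `P'`, then `P'` is unramified over `down P'`. -/
theorem ord_down_of_exists_one (P' : Place K FK)
    (h1 : ∃ x : FL, P'.ord (algebraMap FL FK x) = 1) (y : FL) :
    P'.ord (algebraMap FL FK y) = (down (L := L) (FL := FL) P').ord y := by
  obtain ⟨e, he, h⟩ := ord_down (L := L) (FL := FL) P'
  obtain ⟨x, hx⟩ := h1
  have hx' := h x
  rw [hx] at hx'
  have he1 : e = 1 := by
    have hdvd : e ∣ 1 := ⟨_, hx'⟩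
    exact Int.eq_one_of_dvd_one he.le hdvd
  rw [h y, he1, one_mul]

end Down

section Discrete

variable {K F : Type*} [Field K] [Field F] [Algebra K F]

/-- a valuation subring containing (the image of) a ring contains every element integral over
that ring. -/
theorem mem_of_isIntegral_of_forall_mem {R : Type*} [CommRing R] [Algebra R F]
    (O : ValuationSubring F) (hR : ∀ r : R, algebraMap R F r ∈ O) {x : F}
    (hx : IsIntegral R x) : x ∈ O := by
  let φ : R →+* O := (algebraMap R F).codRestrict O.toSubring hR
  have hcomp : (algebraMap O F).comp φ = algebraMap R F := by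
    ext r; rfl
  have h1 : ((algebraMap O F).comp φ).IsIntegralElem x := by rw [hcomp]; exact hx
  have h2 : IsIntegral O x := RingHom.IsIntegralElem.of_comp h1
  obtain ⟨a, ha⟩ := IsIntegrallyClosed.isIntegral_iff.mp h2
  rw [← ha]
  exact a.2

/-- polynomial expressions in `y` lie in every valuation subring containing `K` and `y`. -/
theorem aeval_mem_of_mem' (V : ValuationSubring F) (hK : ∀ c : K, algebraMap K F c ∈ V)
    (y : F) (hyV : y ∈ V) (p : K[X]) : aeval y p ∈ V := by
  induction p using Polynomial.induction_on' with
  | add p q hp hq => rw [map_add]; exact V.add_mem _ _ hp hq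
  | monomial n a =>
    rw [aeval_monomial]
    exact V.mul_mem _ _ (hK a) (pow_mem hyV n)

/-- a nontrivial valuation subring of a function field containing the constants and a
separating transcendental element is the valuation ring of a prime of the Dedekind model. -/
theorem exists_prime_eq_of_mem [CharZero K] (y : F) [hy : Fact (Transcendental K y)]
    [FiniteDimensional K⟮y⟯ F] (V : ValuationSubring F)
    (hK : ∀ c : K, algebraMap K F c ∈ V) (hne : V ≠ ⊤) (hyV : y ∈ V) :
    ∃ 𝔭 : HeightOneSpectrum (Bof K y), V = (𝔭.valuation F).valuationSubring := by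
  have hB : ∀ b : Bof K y, algebraMap (Bof K y) F b ∈ V := by
    intro b
    refine mem_of_isIntegral_of_forall_mem (R := PolyOf K y) V ?_ b.2
    intro a
    exact aeval_mem_of_mem' V hK y hyV a
  let φ : Bof K y →+* V := (algebraMap (Bof K y) F).codRestrict V.toSubring hB
  have hφ : ∀ b, ((φ b : V) : F) = algebraMap (Bof K y) F b := fun _ => rfl
  let 𝔭 : HeightOneSpectrum (Bof K y) :=
    { asIdeal := Ideal.comap φ (IsLocalRing.maximalIdeal V)
      isPrime := Ideal.comap_isPrime _ _
      ne_bot := by
        intro hbot
        apply hne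
        refine SetLike.ext fun x => ⟨fun _ => ValuationSubring.mem_top x, fun _ => ?_⟩
        obtain ⟨a, b, hb, rfl⟩ := IsFractionRing.div_surjective (A := Bof K y) x
        have hb0 : b ≠ 0 := nonZeroDivisors.ne_zero hb
        have hbu : IsUnit (φ b) := by
          by_contra hnu
          have : b ∈ Ideal.comap φ (IsLocalRing.maximalIdeal V) :=
            (IsLocalRing.mem_maximalIdeal _).mpr hnu
          rw [hbot] at this
          exact hb0 ((Ideal.mem_bot).mp this)
        obtain ⟨u, hu⟩ := hbu
        have hinv : ((u⁻¹ : Vˣ) : V).1 = (algebraMap (Bof K y) F b)⁻¹ := by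
          apply eq_inv_of_mul_eq_one_left
          have h := congrArg (fun z : V => (z : F)) (u.inv_mul)
          simp only [hu] at h
          exact h
        rw [div_eq_mul_inv, ← hinv]
        exact V.mul_mem _ _ (hB a) (SetLike.coe_mem _) }
  refine ⟨𝔭, ?_⟩
  rw [← HeightOneSpectrum.valuationSubringAtPrime_eq_valuationSubring]
  refine (ValuationSubring.eq_of_le_of_ne_top _ ?_ hne).symm
  rintro x ⟨a, s, hs, rfl⟩
  have hsu : IsUnit (φ s) := by
    by_contra hnu
    exact hs ((IsLocalRing.mem_maximalIdeal _).mpr hnu)
  obtain ⟨u, hu⟩ := hsu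
  have hinv : ((u⁻¹ : Vˣ) : V).1 = (algebraMap (Bof K y) F s)⁻¹ := by
    apply eq_inv_of_mul_eq_one_left
    have h := congrArg (fun z : V => (z : F)) (u.inv_mul)
    simp only [hu] at h
    exact h
  show algebraMap (Bof K y) F a * (algebraMap (Bof K y) F s)⁻¹ ∈ V
  rw [← hinv]
  exact V.mul_mem _ _ (hB a) (SetLike.coe_mem _)

/-- a nontrivial valuation subring of a function field containing the constants and a
separating transcendental element is a discrete valuation ring. -/
theorem isPrincipalIdealRing_of_mem [CharZero K] (y : F) (hy : Transcendental K y)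
    [FiniteDimensional K⟮y⟯ F] (V : ValuationSubring F)
    (hK : ∀ c : K, algebraMap K F c ∈ V) (hne : V ≠ ⊤) (hyV : y ∈ V) :
    IsPrincipalIdealRing V := by
  have : Fact (Transcendental K y) := ⟨hy⟩
  obtain ⟨𝔭, h𝔭⟩ := exists_prime_eq_of_mem y V hK hne hyV
  rw [h𝔭]
  exact Place.isPrincipalIdealRing_valuationSubring 𝔭

theorem adjoin_inv_eq' (y : F) : K⟮y⁻¹⟯ = K⟮y⟯ := by
  apply le_antisymm
  · rw [IntermediateField.adjoin_simple_le_iff]
    exact (K⟮y⟯).inv_mem (IntermediateField.mem_adjoin_simple_self K y)
  · rw [IntermediateField.adjoin_simple_le_iff]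
    have := (K⟮y⁻¹⟯).inv_mem (IntermediateField.mem_adjoin_simple_self K y⁻¹)
    rwa [inv_inv] at this

/-- the same with `y` or `y⁻¹` integral (automatic). -/
theorem isPrincipalIdealRing_of_transcendental [CharZero K] (y : F) (hy : Transcendental K y)
    [h : FiniteDimensional K⟮y⟯ F] (V : ValuationSubring F)
    (hK : ∀ c : K, algebraMap K F c ∈ V) (hne : V ≠ ⊤) :
    IsPrincipalIdealRing V := by
  rcases V.mem_or_inv_mem y with hyV | hyV
  · exact isPrincipalIdealRing_of_mem y hy V hK hne hyV
  · have hy' : Transcendental K y⁻¹ := by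
      intro hh
      apply hy
      have := hh.inv
      rwa [inv_inv] at this
    have key : ∀ E1 E2 : IntermediateField K F, E1 = E2 →
        FiniteDimensional E1 F → FiniteDimensional E2 F := by
      rintro _ _ rfl h; exact h
    have : FiniteDimensional K⟮y⁻¹⟯ F := key _ _ (adjoin_inv_eq' y).symm h
    exact isPrincipalIdealRing_of_mem y⁻¹ hy' V hK hne hyV

end Discrete

section Up

variable {L K FL FK : Type*} [Field L] [Field K] [Field FL] [Field FK]
  [Algebra L K] [Algebra L FL] [Algebra K FK] [Algebra FL FK] [Algebra L FK]
  [IsScalarTower L FL FK] [IsScalarTower L K FK] [Algebra.IsAlgebraic FL FK]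

/-- **Going up.** Every place of `FL / L` is the restriction of a place of `FK / K`
(`K / L` algebraic, `FK / K` a function field of characteristic zero). -/
theorem exists_up [Algebra.IsAlgebraic L K] [CharZero K] (y : FK) (hy : Transcendental K y)
    [FiniteDimensional K⟮y⟯ FK] (P : Place L FL) :
    ∃ P' : Place K FK, down (L := L) (FL := FL) P' = P := by
  obtain ⟨V', hV'⟩ := KummerDescent.exists_comap_eq (algebraMap FL FK) P.toValuationSubring
  have hne : V' ≠ ⊤ := by
    intro htop
    apply P.ne_top'
    rw [← hV', htop]
    ext x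
    simp [ValuationSubring.mem_comap]
  have hL : ∀ a : L, algebraMap L FK a ∈ V' := by
    intro a
    rw [IsScalarTower.algebraMap_apply L FL FK]
    have : algebraMap L FL a ∈ V'.comap (algebraMap FL FK) := by
      rw [hV']; exact P.algebraMap_mem' a
    exact this
  have hK : ∀ c : K, algebraMap K FK c ∈ V' := by
    intro c
    have hc : IsIntegral L c := (Algebra.IsAlgebraic.isAlgebraic c).isIntegral
    have hc' : IsIntegral L (algebraMap K FK c) := hc.map (IsScalarTower.toAlgHom L K FK)
    exact mem_of_isIntegral_of_forall_mem (R := L) V' hL hc'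
  have hpid : IsPrincipalIdealRing V' := isPrincipalIdealRing_of_transcendental y hy V' hK hne
  refine ⟨⟨V', hK, hne, hpid⟩, ?_⟩
  apply Place.ext
  exact hV'

/-- **(B-div)** Divisibility of the orders at all places of `FK / K` descends to all places of
`FL / L`, provided `FK / FL` is unramified at every place. -/
theorem dvd_ord_of_bar [Algebra.IsAlgebraic L K] [CharZero K] (y : FK) (hy : Transcendental K y)
    [FiniteDimensional K⟮y⟯ FK] (u : FL) (m : ℤ)
    (hdiv : ∀ P' : Place K FK, m ∣ P'.ord (algebraMap FL FK u))
    (hunr : ∀ P' : Place K FK, ∃ x : FL, P'.ord (algebraMap FL FK x) = 1)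
    (P : Place L FL) : m ∣ P.ord u := by
  obtain ⟨P', rfl⟩ := exists_up (L := L) (FL := FL) y hy P
  rw [← ord_down_of_exists_one P' (hunr P') u]
  exact hdiv P'

/-- two-function form of `dvd_ord_of_bar` (shape of the hypothesis of `Trans.Star`). -/
theorem dvd_ord_sub_of_bar [Algebra.IsAlgebraic L K] [CharZero K] (y : FK)
    (hy : Transcendental K y) [FiniteDimensional K⟮y⟯ FK] (u₁ u₂ : FL) (m : ℤ)
    (hdiv : ∀ P' : Place K FK,
      m ∣ P'.ord (algebraMap FL FK u₁) - P'.ord (algebraMap FL FK u₂))
    (hunr : ∀ P' : Place K FK, ∃ x : FL, P'.ord (algebraMap FL FK x) = 1)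
    (P : Place L FL) : m ∣ P.ord u₁ - P.ord u₂ := by
  obtain ⟨P', rfl⟩ := exists_up (L := L) (FL := FL) y hy P
  rw [← ord_down_of_exists_one P' (hunr P') u₁, ← ord_down_of_exists_one P' (hunr P') u₂]
  exact hdiv P'

end Up

end Fermat.Agent.S18.Places.ConstExt
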