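import Mathlib
import Fermat.Prelude.Def_AlgebraicCurve_DivisorClassGroup
import Fermat.Agent.S24.FFPlaces
import Fermat.Agent.S18.Places.ConstExt

/-!
# S18, block B (places), leaf B2: constant field extensions are unramified

Generic setting of `Places/ConstExt.lean`: fields `L ⊆ K` (`K / L` algebraic, characteristic zero),
function fields `FL / L`, `FK / K` with `FL → FK` compatible with `L → K`, and `FK` generated by
`FL` and `K` (`hgen`).  Then every place `P'` of `FK / K` is unramified over its restriction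
`down P'` to `FL`: `ord_{P'} ∘ ι = ord_{down P'}`.

Elementary proof (no tensor products, no localisations): for `a : K` with minimal polynomial
`φ` over `L` (separable), `V := O_{down P'}` with uniformiser `ϖ` and residue field `κ`,
`J := {g ∈ V[X] | g(a) ∈ m_{P'}}` maps onto a prime `(p) ⊂ κ[X]` with `φ̄ = p · p₂`, `p ∤ p₂`;
for a lift `P₂` of `p₂`, `P₂(a)` is a unit at `P'` and `g(a) · P₂(a) ∈ ϖ · V[a]` for all `g ∈ J`.
Induction on the order gives `ord_{P'}(ϖ) ∣ ord_{P'}(z)` for every `z ∈ FL[a]`, hence (primitive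
element theorem) for every `z ∈ FK`; a uniformiser at `P'` then forces `ord_{P'}(ϖ) = 1`.

Main exports: `exists_ord_eq_one` (`hunr` of `ConstExt.dvd_ord_of_bar`), `ord_algebraMap_eq`,
`exists_place_extension`, `dvd_ord_of_forall_dvd`, `dvd_ord_sub_of_forall_dvd`.
-/

set_option autoImplicit false
set_option linter.unusedSectionVars false

open Polynomial AlgebraicCurve IntermediateField

namespace Fermat.Agent.S18.Places.Unramified

open Fermat.Agent.S18.Places.ConstExt

section PartA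

/-- the polynomial lemma: a unit `P₂(α)` multiplying the maximal ideal of `V[α]` into `ϖ V[α]`. -/
theorem exists_unit_mul_mem {V O κ : Type*} [CommRing V] [CommRing O] [Field κ]
    (ρ : V →+* κ) (hρ : Function.Surjective ρ) (ϖ : V) (hker : RingHom.ker ρ = Ideal.span {ϖ})
    (𝔪 : Ideal O) [h𝔪 : 𝔪.IsPrime] (f : V →+* O) (hϖ : f ϖ ∈ 𝔪) (α : O)
    (φ : V[X]) (hφ : eval₂ f α φ = 0) (hsq : Squarefree (φ.map ρ)) :
    ∃ P2 : V[X], eval₂ f α P2 ∉ 𝔪 ∧
      ∀ g : V[X], eval₂ f α g ∈ 𝔪 → ∃ R : V[X], eval₂ f α g * eval₂ f α P2 = f ϖ * eval₂ f α R := by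
  classical
  let ρ' : V[X] →+* κ[X] := mapRingHom ρ
  have hρ' : Function.Surjective ρ' := map_surjective ρ hρ
  have hker' : RingHom.ker ρ' = Ideal.span {C ϖ} := by
    rw [ker_mapRingHom, hker, Ideal.map_span, Set.image_singleton]
  let J : Ideal V[X] := Ideal.comap (eval₂RingHom f α) 𝔪
  have hJmem : ∀ g : V[X], g ∈ J ↔ eval₂ f α g ∈ 𝔪 := fun g => Iff.rfl
  have hJprime : J.IsPrime := Ideal.comap_isPrime _ _
  have hkerJ : RingHom.ker ρ' ≤ J := by
    rw [hker', Ideal.span_le, Set.singleton_subset_iff]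
    show eval₂ f α (C ϖ) ∈ 𝔪
    rwa [eval₂_C]
  have hφJ : φ ∈ J := by
    rw [hJmem, hφ]; exact 𝔪.zero_mem
  let Jb : Ideal κ[X] := J.map ρ'
  have hJbprime : Jb.IsPrime := Ideal.map_isPrime_of_surjective hρ' hkerJ
  have hJbmem : ∀ g : V[X], ρ' g ∈ Jb → g ∈ J := by
    intro g hg
    obtain ⟨g', hg'J, hg'⟩ := (Ideal.mem_map_iff_of_surjective ρ' hρ').mp hg
    have : g - g' ∈ RingHom.ker ρ' := by
      rw [RingHom.mem_ker, map_sub, hg', sub_self]
    have h2 := J.add_mem (hkerJ this) hg'J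
    rwa [sub_add_cancel] at h2
  have hφb0 : φ.map ρ ≠ 0 := hsq.ne_zero
  obtain ⟨p, hp⟩ : ∃ p : κ[X], Jb = Ideal.span {p} := ⟨_, (Ideal.span_singleton_generator Jb).symm⟩
  have hφb : φ.map ρ ∈ Jb := Ideal.mem_map_of_mem ρ' hφJ
  have hp0 : p ≠ 0 := by
    rintro rfl
    rw [hp, Ideal.span_singleton_eq_bot.mpr rfl, Ideal.mem_bot] at hφb
    exact hφb0 hφb
  have hpprime : Prime p := by
    rw [hp] at hJbprime
    exact (Ideal.span_singleton_prime hp0).mp hJbprime
  obtain ⟨p2, hp2⟩ : p ∣ φ.map ρ := by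
    rw [hp] at hφb
    exact Ideal.mem_span_singleton.mp hφb
  have hnd : ¬ p ∣ p2 := by
    rintro ⟨c, rfl⟩
    have : p * p ∣ φ.map ρ := ⟨c, by rw [hp2]; ring⟩
    exact hpprime.not_isUnit (hsq p this)
  obtain ⟨P2, hP2⟩ := hρ' p2
  refine ⟨P2, ?_, ?_⟩
  · intro hmem
    have : ρ' P2 ∈ Jb := Ideal.mem_map_of_mem ρ' ((hJmem P2).mpr hmem)
    rw [hP2, hp] at this
    exact hnd (Ideal.mem_span_singleton.mp this)
  · intro g hg
    have hgJb : ρ' g ∈ Jb := Ideal.mem_map_of_mem ρ' ((hJmem g).mpr hg)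
    rw [hp] at hgJb
    obtain ⟨c, hc⟩ := Ideal.mem_span_singleton.mp hgJb
    obtain ⟨C0, hC0⟩ := hρ' c
    have hk : g * P2 - φ * C0 ∈ RingHom.ker ρ' := by
      rw [RingHom.mem_ker, map_sub, map_mul, map_mul, hP2, hC0, hc]
      show p * c * p2 - φ.map ρ * c = 0
      rw [hp2]; ring
    rw [hker'] at hk
    obtain ⟨R, hR⟩ := Ideal.mem_span_singleton.mp hk
    refine ⟨R, ?_⟩
    have := congrArg (eval₂ f α) hR
    rw [eval₂_sub, eval₂_mul, eval₂_mul, hφ, zero_mul, sub_zero, eval₂_mul, eval₂_C] at this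
    exact this


end PartA

section PartB

variable {k E : Type*} [Field k] [Field E] [Algebra k E]

/-- divisibility of the orders of all elements of `V[α]` by the order of the uniformiser. -/
theorem dvd_ord_eval₂ {V κ : Type*} [CommRing V] [Field κ] (P' : Place k E)
    (ρ : V →+* κ) (hρ : Function.Surjective ρ) (ϖ : V) (hker : RingHom.ker ρ = Ideal.span {ϖ})
    (f : V →+* E) (hf : ∀ v, f v ∈ P'.toValuationSubring) (α : E)
    (hα : α ∈ P'.toValuationSubring) (hϖ0 : f ϖ ≠ 0) (hϖ : 0 < P'.ord (f ϖ))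
    (φ : V[X]) (hφ : eval₂ f α φ = 0) (hsq : Squarefree (φ.map ρ)) :
    ∀ g : V[X], eval₂ f α g ≠ 0 → P'.ord (f ϖ) ∣ P'.ord (eval₂ f α g) := by
  set O := P'.toValuationSubring with hO
  let f' : V →+* O := f.codRestrict O.toSubring hf
  let α' : O := ⟨α, hα⟩
  have hcoe : ∀ g : V[X], ((eval₂ f' α' g : O) : E) = eval₂ f α g := by
    intro g
    have h := hom_eval₂ g f' O.subtype α'
    have hcomp : O.subtype.comp f' = f := by
      ext v; rfl
    rw [hcomp] at h
    exact h
  have hmem : ∀ g : V[X], eval₂ f α g ∈ O := fun g => hcoe g ▸ (eval₂ f' α' g).2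
  have hϖ' : f' ϖ ∈ IsLocalRing.maximalIdeal O := by
    have := (Fermat.Agent.S24.ord_pos_iff_mem_maximalIdeal P' hϖ0).mp hϖ
    obtain ⟨h1, h2⟩ := this
    exact h2
  have hφ' : eval₂ f' α' φ = 0 := by
    apply Subtype.ext
    rw [hcoe, hφ]; rfl
  obtain ⟨P2, hP2, hkey⟩ := exists_unit_mul_mem ρ hρ ϖ hker (IsLocalRing.maximalIdeal O) f' hϖ' α'
    φ hφ' hsq
  -- ord of eval P2 is zero
  have hP2ne : eval₂ f α P2 ≠ 0 := by
    intro h0
    apply hP2
    have : eval₂ f' α' P2 = 0 := Subtype.ext (by rw [hcoe, h0]; rfl)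
    rw [this]; exact Ideal.zero_mem _
  have hP2ord : P'.ord (eval₂ f α P2) = 0 := by
    have h1 : 0 ≤ P'.ord (eval₂ f α P2) :=
      (Fermat.Agent.S24.mem_iff_ord_nonneg P' hP2ne).mp (hmem P2)
    by_contra hne
    have hpos : 0 < P'.ord (eval₂ f α P2) := lt_of_le_of_ne h1 (Ne.symm hne)
    obtain ⟨h2, h3⟩ := (Fermat.Agent.S24.ord_pos_iff_mem_maximalIdeal P' hP2ne).mp hpos
    apply hP2
    convert h3 using 1
    exact Subtype.ext (hcoe P2)
  -- strong induction
  have main : ∀ n : ℕ, ∀ g : V[X], eval₂ f α g ≠ 0 → (P'.ord (eval₂ f α g)).toNat = n →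
      P'.ord (f ϖ) ∣ P'.ord (eval₂ f α g) := by
    intro n
    induction n using Nat.strong_induction_on with
    | _ n ih =>
      intro g hg hn
      have hnn : 0 ≤ P'.ord (eval₂ f α g) :=
        (Fermat.Agent.S24.mem_iff_ord_nonneg P' hg).mp (hmem g)
      rcases hnn.eq_or_lt with h0 | hpos
      · rw [← h0]; exact dvd_zero _
      · obtain ⟨h2, h3⟩ := (Fermat.Agent.S24.ord_pos_iff_mem_maximalIdeal P' hg).mp hpos
        have hg' : eval₂ f' α' g ∈ IsLocalRing.maximalIdeal O := by
          convert h3 using 1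
          exact Subtype.ext (hcoe g)
        obtain ⟨R, hR⟩ := hkey g hg'
        have hR' : eval₂ f α g * eval₂ f α P2 = f ϖ * eval₂ f α R := by
          have := congrArg (fun z : O => (z : E)) hR
          simpa [hcoe, f'] using this
        have hRne : eval₂ f α R ≠ 0 := by
          intro h0
          rw [h0, mul_zero] at hR'
          exact (mul_ne_zero hg hP2ne) hR'
        have hord : P'.ord (eval₂ f α g) = P'.ord (f ϖ) + P'.ord (eval₂ f α R) := by
          have := congrArg P'.ord hR'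
          rw [P'.ord_mul hg hP2ne, P'.ord_mul hϖ0 hRne, hP2ord, add_zero] at this
          exact this
        have hRnn : 0 ≤ P'.ord (eval₂ f α R) :=
          (Fermat.Agent.S24.mem_iff_ord_nonneg P' hRne).mp (hmem R)
        have hlt : (P'.ord (eval₂ f α R)).toNat < n := by
          rw [← hn]; omega
        have := ih _ hlt R hRne rfl
        rw [hord]
        exact dvd_add (dvd_refl _) this
  intro g hg
  exact main _ g hg rfl


end PartB

section Main

variable {L K FL FK : Type*} [Field L] [Field K] [Field FL] [Field FK]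
  [Algebra L K] [Algebra L FL] [Algebra K FK] [Algebra FL FK] [Algebra L FK]
  [IsScalarTower L FL FK] [IsScalarTower L K FK]
  [Algebra.IsAlgebraic L K] [CharZero L]

/-- the same for all elements of `FL[a]`, `a : K`. -/
theorem dvd_ord_of_mem_adjoin_singleton (P' : Place K FK) (P : Place L FL)
    (hmem : ∀ y : FL, y ∈ P.toValuationSubring → algebraMap FL FK y ∈ P'.toValuationSubring)
    (e : ℤ) (he : 0 < e) (hord : ∀ y : FL, P'.ord (algebraMap FL FK y) = e * P.ord y)
    (a : K) (z : FK) (hz : z ∈ Algebra.adjoin FL {algebraMap K FK a}) (hz0 : z ≠ 0) :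
    e ∣ P'.ord z := by
  obtain ⟨ϖ, hϖ⟩ := IsDiscreteValuationRing.exists_irreducible P.toValuationSubring
  have hϖ1 : P.ord (ϖ : FL) = 1 := P.ord_coe_irreducible hϖ
  have heq : P'.ord (algebraMap FL FK (ϖ : FL)) = e := by rw [hord, hϖ1, mul_one]
  let V := P.toValuationSubring
  let f : V →+* FK := (algebraMap FL FK).comp V.subtype
  have hf : ∀ v, f v ∈ P'.toValuationSubring := fun v => hmem (v : FL) v.2
  have hfinj : Function.Injective f :=
    (algebraMap FL FK).injective.comp Subtype.val_injective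
  have hϖ0 : f ϖ ≠ 0 := by
    rw [Ne, map_eq_zero_iff f hfinj]
    exact hϖ.ne_zero
  have hfϖ : P'.ord (f ϖ) = e := heq
  have hϖpos : 0 < P'.ord (f ϖ) := hfϖ ▸ he
  have hker : RingHom.ker (IsLocalRing.residue V) = Ideal.span {ϖ} := by
    rw [IsLocalRing.ker_residue, hϖ.maximalIdeal_eq]
  have hint : IsIntegral L a := (Algebra.IsAlgebraic.isAlgebraic a).isIntegral
  let φ : V[X] := (minpoly L a).map (algebraMap L V)
  have hcomp : f.comp (algebraMap L V) = (algebraMap K FK).comp (algebraMap L K) := by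
    ext c
    show algebraMap FL FK (algebraMap L FL c) = algebraMap K FK (algebraMap L K c)
    rw [← IsScalarTower.algebraMap_apply, ← IsScalarTower.algebraMap_apply]
  have hφ : eval₂ f (algebraMap K FK a) φ = 0 := by
    rw [eval₂_map, hcomp, ← hom_eval₂, ← aeval_def, minpoly.aeval, map_zero]
  have hsq : Squarefree (φ.map (IsLocalRing.residue V)) := by
    rw [Polynomial.map_map]
    have hsep : (minpoly L a).Separable := (minpoly.irreducible hint).separable
    exact (hsep.map (f := (IsLocalRing.residue V).comp (algebraMap L V))).squarefree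
  have key := dvd_ord_eval₂ P' (IsLocalRing.residue V) IsLocalRing.residue_surjective ϖ hker f hf
    (algebraMap K FK a) (P'.algebraMap_mem' a) hϖ0 hϖpos φ hφ hsq
  rw [hfϖ] at key
  -- write z = h(α)
  rw [Algebra.adjoin_singleton_eq_range_aeval] at hz
  obtain ⟨h, hh⟩ := hz
  have hh' : aeval (algebraMap K FK a) h = z := hh
  clear hh
  subst hh'
  obtain ⟨b, hb, hspec⟩ := IsLocalization.integerNormalization_spec (nonZeroDivisors V) h
  set g := IsLocalization.integerNormalization (nonZeroDivisors V) h with hg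
  have hb0 : (b : FL) ≠ 0 := by
    have := nonZeroDivisors.ne_zero hb
    intro h0
    exact this (Subtype.ext h0)
  have hbι : algebraMap FL FK (b : FL) ≠ 0 := by
    rwa [Ne, map_eq_zero_iff _ (algebraMap FL FK).injective]
  have heval : eval₂ f (algebraMap K FK a) g = algebraMap FL FK (b : FL) * aeval (algebraMap K FK a) h := by
    have h1 : eval₂ f (algebraMap K FK a) g
        = eval₂ (algebraMap FL FK) (algebraMap K FK a) (g.map (algebraMap V FL)) := by
      rw [eval₂_map]; rfl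
    rw [h1, hspec, aeval_def]
    have : (b • h : FL[X]) = C (b : FL) * h := by
      rw [← smul_eq_C_mul]
      rfl
    rw [this, eval₂_mul, eval₂_C]
  have hne : eval₂ f (algebraMap K FK a) g ≠ 0 := by
    rw [heval]; exact mul_ne_zero hbι hz0
  have h1 := key g hne
  rw [heval, P'.ord_mul hbι hz0, hord (b : FL)] at h1
  exact (dvd_add_right (dvd_mul_right e _)).mp h1

/-- if `a ∈ L[γ]` then `FL[a] ≤ FL[γ]` inside `FK`. -/
theorem adjoin_le_of_mem (a γ : K) (ha : a ∈ Algebra.adjoin L {γ}) :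
    Algebra.adjoin FL {algebraMap K FK a} ≤ Algebra.adjoin FL {algebraMap K FK γ} := by
  rw [Algebra.adjoin_le_iff, Set.singleton_subset_iff]
  rw [Algebra.adjoin_singleton_eq_range_aeval] at ha
  obtain ⟨q, hq⟩ := ha
  have hq' : aeval γ q = a := hq
  have : algebraMap K FK a = aeval (algebraMap K FK γ) (q.map (algebraMap L FL)) := by
    rw [aeval_map_algebraMap, ← hq', aeval_algebraMap_apply]
  rw [SetLike.mem_coe, this]
  exact aeval_mem_adjoin_singleton _ _

/-- (C2) every element of `FL[K]` lies in `FL[a]` for a single `a : K`. -/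
theorem exists_mem_adjoin_singleton (L : Type*) {K FL FK : Type*} [Field L] [Field K] [Field FL]
    [Field FK] [Algebra L K] [Algebra L FL] [Algebra K FK] [Algebra FL FK] [Algebra L FK]
    [IsScalarTower L FL FK] [IsScalarTower L K FK] [Algebra.IsAlgebraic L K] [CharZero L]
    (z : FK)
    (hz : z ∈ Algebra.adjoin FL (Set.range (algebraMap K FK))) :
    ∃ a : K, z ∈ Algebra.adjoin FL {algebraMap K FK a} := by
  have : Infinite L := CharZero.infinite L
  have hcomb : ∀ (a₁ a₂ : K), ∃ γ : K,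
      Algebra.adjoin FL {algebraMap K FK a₁} ≤ Algebra.adjoin FL {algebraMap K FK γ} ∧
      Algebra.adjoin FL {algebraMap K FK a₂} ≤ Algebra.adjoin FL {algebraMap K FK γ} := by
    intro a₁ a₂
    obtain ⟨γ, hγ⟩ := Field.primitive_element_inf_aux L a₁ a₂
    have hγalg : IsAlgebraic L γ := Algebra.IsAlgebraic.isAlgebraic γ
    have h1 : a₁ ∈ L⟮γ⟯ := hγ ▸ subset_adjoin L {a₁, a₂} (by simp)
    have h2 : a₂ ∈ L⟮γ⟯ := hγ ▸ subset_adjoin L {a₁, a₂} (by simp)
    have hsub : L⟮γ⟯.toSubalgebra = Algebra.adjoin L {γ} :=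
      adjoin_simple_toSubalgebra_of_isAlgebraic hγalg
    refine ⟨γ, adjoin_le_of_mem (L := L) a₁ γ ?_, adjoin_le_of_mem (L := L) a₂ γ ?_⟩
    · rw [← hsub]; exact h1
    · rw [← hsub]; exact h2
  induction hz using Algebra.adjoin_induction with
  | mem x hx =>
    obtain ⟨a, rfl⟩ := hx
    exact ⟨a, Algebra.self_mem_adjoin_singleton _ _⟩
  | algebraMap r => exact ⟨0, Subalgebra.algebraMap_mem _ r⟩
  | add x y _ _ hx hy =>
    obtain ⟨a₁, h₁⟩ := hx
    obtain ⟨a₂, h₂⟩ := hy
    obtain ⟨γ, hγ₁, hγ₂⟩ := hcomb a₁ a₂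
    exact ⟨γ, add_mem (hγ₁ h₁) (hγ₂ h₂)⟩
  | mul x y _ _ hx hy =>
    obtain ⟨a₁, h₁⟩ := hx
    obtain ⟨a₂, h₂⟩ := hy
    obtain ⟨γ, hγ₁, hγ₂⟩ := hcomb a₁ a₂
    exact ⟨γ, mul_mem (hγ₁ h₁) (hγ₂ h₂)⟩


variable [Algebra.IsAlgebraic FL FK]

/-- **Constant field extensions are unramified**: some element of `FL` has order one at `P'`
(= hypothesis `hunr` of `ConstExt.dvd_ord_of_bar`). -/
theorem exists_ord_eq_one (L : Type*) {K FL FK : Type*} [Field L] [Field K] [Field FL]
    [Field FK] [Algebra L K] [Algebra L FL] [Algebra K FK] [Algebra FL FK] [Algebra L FK]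
    [IsScalarTower L FL FK] [IsScalarTower L K FK] [Algebra.IsAlgebraic L K] [CharZero L]
    [Algebra.IsAlgebraic FL FK]
    (hgen : ∀ z : FK, z ∈ Algebra.adjoin FL (Set.range (algebraMap K FK)))
    (P' : Place K FK) : ∃ x : FL, P'.ord (algebraMap FL FK x) = 1 := by
  obtain ⟨e, he, hord⟩ := ord_down (L := L) (FL := FL) P'
  obtain ⟨π', hπ'⟩ := IsDiscreteValuationRing.exists_irreducible P'.toValuationSubring
  have hπ'1 : P'.ord (π' : FK) = 1 := P'.ord_coe_irreducible hπ'
  have hπ'0 : (π' : FK) ≠ 0 := by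
    intro h0
    rw [h0, Place.ord_zero] at hπ'1
    exact zero_ne_one hπ'1
  obtain ⟨a, ha⟩ := exists_mem_adjoin_singleton L (π' : FK) (hgen _)
  have hdvd : e ∣ P'.ord (π' : FK) :=
    dvd_ord_of_mem_adjoin_singleton P' (down (L := L) (FL := FL) P')
      (fun y hy => (mem_down_iff P' y).mp hy) e he hord a (π' : FK) ha hπ'0
  rw [hπ'1] at hdvd
  have he1 : e = 1 := Int.eq_one_of_dvd_one he.le hdvd
  obtain ⟨ϖ, hϖ⟩ := IsDiscreteValuationRing.exists_irreducible
    (down (L := L) (FL := FL) P').toValuationSubring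
  refine ⟨(ϖ : FL), ?_⟩
  rw [hord, he1, one_mul]
  exact (down (L := L) (FL := FL) P').ord_coe_irreducible hϖ

/-- `ord_{P'} ∘ ι = ord_{down P'}`. -/
theorem ord_algebraMap_eq
    (hgen : ∀ z : FK, z ∈ Algebra.adjoin FL (Set.range (algebraMap K FK)))
    (P' : Place K FK) (y : FL) :
    P'.ord (algebraMap FL FK y) = (down (L := L) (FL := FL) P').ord y :=
  ord_down_of_exists_one P' (exists_ord_eq_one L hgen P') y

/-- existence of an unramified extension of a place of `FL / L` to `FK / K`. -/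
theorem exists_place_extension
    (hgen : ∀ z : FK, z ∈ Algebra.adjoin FL (Set.range (algebraMap K FK)))
    (y : FK) (hy : Transcendental K y) [FiniteDimensional K⟮y⟯ FK] (P : Place L FL) :
    ∃ P' : Place K FK, down (L := L) (FL := FL) P' = P ∧
      ∀ x : FL, P'.ord (algebraMap FL FK x) = P.ord x := by
  have : CharZero K := charZero_of_injective_algebraMap (algebraMap L K).injective
  obtain ⟨P', rfl⟩ := exists_up (L := L) (FL := FL) y hy P
  exact ⟨P', rfl, fun x => ord_algebraMap_eq hgen P' x⟩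

/-- **(B-div)**, unconditional: divisibility of all orders over `K` descends to `L`. -/
theorem dvd_ord_of_forall_dvd
    (hgen : ∀ z : FK, z ∈ Algebra.adjoin FL (Set.range (algebraMap K FK)))
    (y : FK) (hy : Transcendental K y) [FiniteDimensional K⟮y⟯ FK] (u : FL) (m : ℤ)
    (hdiv : ∀ P' : Place K FK, m ∣ P'.ord (algebraMap FL FK u)) (P : Place L FL) :
    m ∣ P.ord u := by
  have : CharZero K := charZero_of_injective_algebraMap (algebraMap L K).injective
  exact dvd_ord_of_bar y hy u m hdiv (exists_ord_eq_one L hgen) P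

/-- two-function form (shape of the hypothesis of `Trans.Star`). -/
theorem dvd_ord_sub_of_forall_dvd
    (hgen : ∀ z : FK, z ∈ Algebra.adjoin FL (Set.range (algebraMap K FK)))
    (y : FK) (hy : Transcendental K y) [FiniteDimensional K⟮y⟯ FK] (u₁ u₂ : FL) (m : ℤ)
    (hdiv : ∀ P' : Place K FK,
      m ∣ P'.ord (algebraMap FL FK u₁) - P'.ord (algebraMap FL FK u₂)) (P : Place L FL) :
    m ∣ P.ord u₁ - P.ord u₂ := by
  have : CharZero K := charZero_of_injective_algebraMap (algebraMap L K).injective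
  exact dvd_ord_sub_of_bar y hy u₁ u₂ m hdiv (exists_ord_eq_one L hgen) P

end Main

end Fermat.Agent.S18.Places.Unramified
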