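import Mathlib
import Fermat.Agent.S24.FFZeros
import Fermat.Agent.S24.FFPrincipalAbs

/-!
# S18 block B: the dictionary places of `F/K` ↔ primes of the Dedekind model over the `y`-line

`K` any field of characteristic `0` (NOT assumed algebraically closed), `F/K` a function field,
`y : F` transcendental with `[F : K(y)]` finite, `Bof K y` the integral closure of `K[y]` in `F`.
-/

set_option autoImplicit false

open AlgebraicCurve IsDedekindDomain Polynomial IntermediateField WithZero

namespace Fermat.Agent.S18.Places.Dictionary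

open Fermat.Agent.S24

variable (K : Type*) {F : Type*} [Field K] [Field F] [Algebra K F] (y : F)
  [CharZero K] [hy : Fact (Transcendental K y)] [FiniteDimensional K⟮y⟯ F]

/-- (B1) an element of `F` is integral over `K[y]` iff it is regular at every place at which `y`
is regular. -/
theorem mem_Bof_iff (x : F) :
    x ∈ Bof K y ↔ ∀ v : Place K F, y ∈ v.toValuationSubring → x ∈ v.toValuationSubring := by
  constructor
  · intro hx v hyv
    exact Bof_le_of_mem K y v hyv ⟨x, hx⟩
  · intro h
    have hx : ∀ P : HeightOneSpectrum (Bof K y), P.valuation F x ≤ 1 := by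
      intro P
      have hyP : y ∈ (placeOfPrime (K := K) (F := F) P).toValuationSubring := by
        have := algebraMap_mem_placeOfPrime (K := K) (F := F) P
          (algebraMap (PolyOf K y) (Bof K y) (PolyOf.coord K y))
        rwa [← IsScalarTower.algebraMap_apply, PolyOf.algebraMap_coord] at this
      exact (mem_placeOfPrime_iff P x).mp (h _ hyP)
    obtain ⟨b, hb⟩ := HeightOneSpectrum.mem_integers_of_valuation_le_one F x hx
    rw [← hb]
    exact b.2


/-- `y` is regular at the place of every prime of `Bof K y`. -/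
theorem coord_mem_placeOfPrime (P : HeightOneSpectrum (Bof K y)) :
    y ∈ (placeOfPrime (K := K) (F := F) P).toValuationSubring := by
  have := algebraMap_mem_placeOfPrime (K := K) (F := F) P
    (algebraMap (PolyOf K y) (Bof K y) (PolyOf.coord K y))
  rwa [← IsScalarTower.algebraMap_apply, PolyOf.algebraMap_coord] at this

/-- (B2) places at which `y` is regular ↔ nonzero primes of `Bof K y`. -/
noncomputable def placeEquiv :
    {v : Place K F // y ∈ v.toValuationSubring} ≃ HeightOneSpectrum (Bof K y) where
  toFun v := primeOfPlace v.1 (Bof_le_of_mem K y v.1 v.2)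
  invFun P := ⟨placeOfPrime (K := K) (F := F) P, coord_mem_placeOfPrime K y P⟩
  left_inv v := Subtype.ext (placeOfPrime_primeOfPlace v.1 _)
  right_inv P := primeOfPlace_placeOfPrime (K := K) (F := F) P

theorem placeEquiv_symm_coe (P : HeightOneSpectrum (Bof K y)) :
    ((placeEquiv K y).symm P : Place K F) = placeOfPrime (K := K) (F := F) P := rfl

theorem placeOfPrime_placeEquiv (v : {v : Place K F // y ∈ v.toValuationSubring}) :
    placeOfPrime (K := K) (F := F) (placeEquiv K y v) = v.1 :=
  placeOfPrime_primeOfPlace v.1 _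

/-- `ord` at the place of a prime. -/
theorem ord_placeEquiv_symm (P : HeightOneSpectrum (Bof K y)) {x : F} (hx : x ≠ 0) :
    ((placeEquiv K y).symm P : Place K F).ord x = -(WithZero.log (P.valuation F x)) :=
  ord_placeOfPrime P x hx

/-- `ord` of a place at which `y` is regular, through its prime. -/
theorem ord_eq_neg_log (v : Place K F) (hyv : y ∈ v.toValuationSubring) {x : F} (hx : x ≠ 0) :
    v.ord x = -(WithZero.log ((placeEquiv K y ⟨v, hyv⟩).valuation F x)) := by
  have h := ord_placeOfPrime (K := K) (F := F) (placeEquiv K y ⟨v, hyv⟩) x hx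
  rwa [placeOfPrime_placeEquiv] at h

/-- an element of `Bof K y` has positive order at `v` iff it lies in the prime of `v`. -/
theorem ord_pos_iff_mem_prime (v : Place K F) (hyv : y ∈ v.toValuationSubring) (b : Bof K y)
    (hb : b ≠ 0) :
    0 < v.ord (b : F) ↔ b ∈ (placeEquiv K y ⟨v, hyv⟩).asIdeal := by
  have hb0 : (b : F) ≠ 0 := by
    intro h
    exact hb (Subtype.ext h)
  rw [ord_eq_neg_log K y v hyv hb0, ← HeightOneSpectrum.valuation_lt_one_iff_mem (K := F)]
  have hv0 : (placeEquiv K y ⟨v, hyv⟩).valuation F (b : F) ≠ 0 :=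
    (Valuation.ne_zero_iff _).mpr hb0
  show _ ↔ (placeEquiv K y ⟨v, hyv⟩).valuation F (algebraMap (Bof K y) F b) < 1
  change _ ↔ (placeEquiv K y ⟨v, hyv⟩).valuation F (b : F) < 1
  rw [Left.neg_pos_iff, ← WithZero.log_one, WithZero.log_lt_log hv0 one_ne_zero]

omit [CharZero K] hy [FiniteDimensional K⟮y⟯ F] in
/-- (B5) the two charts `y`, `y⁻¹` cover all places. -/
theorem mem_or_inv_mem (v : Place K F) :
    y ∈ v.toValuationSubring ∨ y⁻¹ ∈ v.toValuationSubring :=
  v.toValuationSubring.mem_or_inv_mem y


/-- finiteness of the support of a nonzero function inside the chart where `y` is regular. -/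
theorem chart_support_finite {x : F} (hx : x ≠ 0) :
    {v : Place K F | y ∈ v.toValuationSubring ∧ v.ord x ≠ 0}.Finite := by
  classical
  obtain ⟨a, b, hb, rfl⟩ := IsFractionRing.div_surjective (A := Bof K y) x
  have hb0 : b ≠ 0 := nonZeroDivisors.ne_zero hb
  have hbF : algebraMap (Bof K y) F b ≠ 0 :=
    (map_ne_zero_iff _ (IsFractionRing.injective (Bof K y) F)).mpr hb0
  have ha0 : a ≠ 0 := by
    rintro rfl
    simp at hx
  have haF : algebraMap (Bof K y) F a ≠ 0 :=
    (map_ne_zero_iff _ (IsFractionRing.injective (Bof K y) F)).mpr ha0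
  have hI : Ideal.span {a * b} ≠ (0 : Ideal (Bof K y)) := by
    rw [Ne, Ideal.zero_eq_bot, Ideal.span_singleton_eq_bot]
    exact mul_ne_zero ha0 hb0
  have hfin := Ideal.finite_factors hI
  refine (hfin.image (fun P => ((placeEquiv K y).symm P : Place K F))).subset ?_
  rintro v ⟨hyv, hord⟩
  refine ⟨placeEquiv K y ⟨v, hyv⟩, ?_, ?_⟩
  · show (placeEquiv K y ⟨v, hyv⟩).asIdeal ∣ Ideal.span {a * b}
    rw [Ideal.dvd_iff_le, Ideal.span_singleton_le_iff_mem]
    by_contra hmem
    apply hord
    have ha' : a ∉ (placeEquiv K y ⟨v, hyv⟩).asIdeal := fun h =>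
      hmem (Ideal.mul_mem_right _ _ h)
    have hb' : b ∉ (placeEquiv K y ⟨v, hyv⟩).asIdeal := fun h =>
      hmem (Ideal.mul_mem_left _ _ h)
    rw [ord_eq_neg_log K y v hyv hx, map_div₀,
      ((placeEquiv K y ⟨v, hyv⟩).valuation_eq_one_iff_notMem (K := F)).mpr ha',
      ((placeEquiv K y ⟨v, hyv⟩).valuation_eq_one_iff_notMem (K := F)).mpr hb']
    simp
  · show ((placeEquiv K y).symm (placeEquiv K y ⟨v, hyv⟩) : Place K F) = v
    rw [Equiv.symm_apply_apply]

omit [CharZero K] [FiniteDimensional K⟮y⟯ F] in
/-- the chart `y⁻¹`. -/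
theorem fact_transcendental_inv : Fact (Transcendental K y⁻¹) :=
  ⟨FFPrin.transcendental_inv (K := K) hy.out⟩

omit [CharZero K] hy in
theorem finiteDimensional_adjoin_inv : FiniteDimensional K⟮y⁻¹⟯ F := by
  have h := FFPrin.finrank_adjoin_inv (K := K) y
  have hpos : 0 < Module.finrank K⟮y⟯ F := Module.finrank_pos
  exact Module.finite_of_finrank_pos (h ▸ hpos)

include y in
/-- (B4) a nonzero function has only finitely many zeros and poles. -/
theorem support_finite {x : F} (hx : x ≠ 0) : {v : Place K F | v.ord x ≠ 0}.Finite := by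
  have := fact_transcendental_inv K y
  have := finiteDimensional_adjoin_inv K y
  refine ((chart_support_finite K y hx).union (chart_support_finite K y⁻¹ hx)).subset ?_
  intro v hv
  rcases v.toValuationSubring.mem_or_inv_mem y with h | h
  · exact Or.inl ⟨h, hv⟩
  · exact Or.inr ⟨h, hv⟩

end Fermat.Agent.S18.Places.Dictionary
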